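import Mathlib
import Fermat.Prelude.Def_CuspForm_HeckeAlgebra
import Fermat.Agent.MUL.S33.PNew
import Fermat.Agent.MUL.F3.EigenChar.Eigenform
import Fermat.Agent.MUL.R38.Ret.ChiCore
import Fermat.Agent.MUL.R38.Ret.Defs
import Fermat.Agent.MUL.S33.NewDefs
import Fermat.Agent.MUL.S22
import Fermat.Agent.MUL.R38.G.Main
import Fermat.Agent.MUL.R38.Spine
import Fermat.Agent.MUL.Lib.BadRed.Graph.Deuring.TypeDef

section MergeWrap_R38_G_NewClass -- from R38/G/NewClass.lean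

set_option autoImplicit false
set_option linter.style.haveILetI false
set_option linter.unusedSectionVars false
set_option linter.unusedVariables false

noncomputable section

namespace Fermat.Agent.R38

open CongruenceSubgroup ModularFormClass ModularCurve ModularCurve.Period AlgebraicCurve
open Fermat.Agent.F3EC Fermat.Agent.F3EP Fermat.Agent.F3 Fermat.Agent.F3Deg Fermat.Agent.F3DegW
  Fermat.Agent.LDeg Fermat.Agent.S35 Fermat.Agent.S33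
open Fermat.Agent.AtkinLehner (ALData)
open CuspForm
open scoped TensorProduct

local notation "Qb" => AlgebraicClosure ℚ

/-! ### `𝔽_p ⊗ H` for a free `ℤ`-module `H` -/

section Tensor

variable {p : ℕ} {H : Type*} [AddCommGroup H]

/-- every element of `ZMod p ⊗ H` is of the form `1 ⊗ c`. -/
theorem g1_exists_one_tmul [NeZero p] (x : ZMod p ⊗[ℤ] H) : ∃ c : H, x = (1 : ZMod p) ⊗ₜ[ℤ] c := by
  induction x using TensorProduct.induction_on with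
  | zero => exact ⟨0, by rw [TensorProduct.tmul_zero]⟩
  | tmul a c =>
    refine ⟨(a.val : ℤ) • c, ?_⟩
    rw [← TensorProduct.smul_tmul, zsmul_eq_mul, mul_one]
    congr 1
    simp
  | add x y hx hy =>
    obtain ⟨c, rfl⟩ := hx
    obtain ⟨d, rfl⟩ := hy
    exact ⟨c + d, by rw [TensorProduct.tmul_add]⟩

/-- `1 ⊗ (p • c) = 0` in `ZMod p ⊗ H`. -/
theorem g1_one_tmul_smul (c : H) : (1 : ZMod p) ⊗ₜ[ℤ] ((p : ℤ) • c) = 0 := by
  rw [← TensorProduct.smul_tmul, zsmul_eq_mul, mul_one]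
  simp

/-- `1 ⊗ c = 0` in `ZMod p ⊗ H` iff `c ∈ p H`, for a free `ℤ`-module `H`. -/
theorem g1_one_tmul_eq_zero [Module.Free ℤ H] {c : H} (h : (1 : ZMod p) ⊗ₜ[ℤ] c = 0) :
    ∃ c' : H, c = (p : ℤ) • c' := by
  classical
  set b := Module.Free.chooseBasis ℤ H with hb
  have hrepr : ∀ i, ((b.repr c i : ℤ) : ZMod p) = 0 := by
    intro i
    have h1 := congrArg (fun z => (Algebra.TensorProduct.basis (ZMod p) b).repr z i) h
    simp only [Algebra.TensorProduct.basis_repr_tmul, map_zero, Finsupp.coe_zero, Pi.zero_apply,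
      one_smul, Finsupp.mapRange_apply] at h1
    simpa using h1
  have hdvd : ∀ i, (p : ℤ) ∣ b.repr c i := fun i =>
    (ZMod.intCast_zmod_eq_zero_iff_dvd _ p).mp (hrepr i)
  refine ⟨b.repr.symm ((b.repr c).mapRange (fun z => z / (p : ℤ)) (by simp)), ?_⟩
  apply b.repr.injective
  rw [map_smul, LinearEquiv.apply_symm_apply]
  ext i
  rw [Finsupp.smul_apply, Finsupp.mapRange_apply, smul_eq_mul, Int.mul_ediv_cancel' (hdvd i)]

end Tensor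

/-! ### the class -/

section Class

variable {N N₀ p : ℕ} [NeZero N] [NeZero N₀] [NeZero p]

/-- **G1 (core)**: a mod-`p` eigen-system of level `N = N₀ p` which does not occur at level `N₀`
has a nonzero `p`-new eigen-class in `J₀(N)(ℚ̄)[p]`. -/
theorem g1_exists_newClass (h : N = N₀ * p) (hp : p.Prime) (hpN : ¬ p ∣ N₀)
    (D : ALData) (hQ : D.Q = p) (hR : D.R = N₀) (hM : N = D.Q * D.R)
    (S : Finset ℕ) (hS : ∀ r : ℕ, r.Prime → r ∣ N → r ∈ S)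
    (χ : CuspForm.heckeAlgebra N 2 (↑S : Set ℕ) →+* ZMod p)
    (hχ : ¬ OccursAtLevel N₀ N S χ) :
    ∃ y : Jtors N p, y ≠ 0 ∧ pnewAlpha h (y : JZero N) = 0 ∧
      pnewBeta h D hM (y : JZero N) = 0 ∧
      ∀ (ℓ : ℕ) (hℓ : ℓ.Prime) (hℓN : ¬ ℓ ∣ N) (hℓS : ℓ ∉ (↑S : Set ℕ)) (a : ℤ),
        (a : ZMod p) = χ (CuspForm.heckeAlgebra.T hℓ hℓN hℓS) →
          heckeTors N p ⟨ℓ, hℓ⟩ y = a • y := by
  haveI : Fact p.Prime := ⟨hp⟩
  obtain ⟨x₀, hx₀, hx⟩ := exists_eigenvector_homPar' (N := N) (S := (↑S : Set ℕ))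
    (fun q hq hqN => Finset.mem_coe.mpr (hS q hq hqN)) χ
  have hnew := pnew_vector_cast h hp hpN S hS (ZMod p) χ hχ x₀ hx
  obtain ⟨c₀, rfl⟩ := g1_exists_one_tmul x₀
  -- torsion: `p • κ_p c = 0`
  have htors : ∀ {M : ℕ} [NeZero M] (c : HomPar M), (p : ℤ) • (kappaC M p c) = 0 := by
    intro M _ c
    apply Subtype.ext
    have := (kappaC M p c).2
    rw [Submodule.mem_torsionBy_iff] at this
    exact this
  refine ⟨kappaC N p c₀, ?_, ?_, ?_, ?_⟩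
  · intro h0
    obtain ⟨c', hc'⟩ := kappaC_ker hp.pos h0
    apply hx₀
    rw [hc']
    exact g1_one_tmul_smul c'
  · have h1 := hnew.1
    rw [LinearMap.baseChange_tmul] at h1
    obtain ⟨c', hc'⟩ := g1_one_tmul_eq_zero h1
    show pushAlphaAt h ((kappaC N p c₀ : Jtors N p) : JZero N) = 0
    rw [pushAlphaAt_kappaC h hp hpN p c₀, hc', map_zsmul (kappaC N₀ p) (p : ℤ) c', htors c']
    rfl
  · have h1 := hnew.2
    rw [LinearMap.baseChange_tmul] at h1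
    obtain ⟨c', hc'⟩ := g1_one_tmul_eq_zero h1
    show (pushAlphaAt h).comp (pushWAt D hM) ((kappaC N p c₀ : Jtors N p) : JZero N) = 0
    rw [AddMonoidHom.comp_apply, pushAlphaAt_pushWAt_kappaC h hp hpN D hQ hR hM p c₀, hc',
      map_zsmul (kappaC N₀ p) (p : ℤ) c', htors c']
    rfl
  · intro ℓ hℓ hℓN hℓS a ha
    have h1 := hx ℓ hℓ hℓN hℓS
    rw [LinearMap.baseChange_tmul, ← ha] at h1
    have h2 : (1 : ZMod p) ⊗ₜ[ℤ] (heckeHom N ⟨ℓ, hℓ⟩ c₀ - a • c₀) = 0 := by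
      rw [TensorProduct.tmul_sub, h1, sub_eq_zero, TensorProduct.smul_tmul', smul_eq_mul, mul_one,
        ← TensorProduct.smul_tmul, zsmul_eq_mul, mul_one]
    obtain ⟨c', hc'⟩ := g1_one_tmul_eq_zero h2
    rw [← kappaC_hecke p ⟨ℓ, hℓ⟩ hℓN c₀]
    have h3 : heckeHom N ⟨ℓ, hℓ⟩ c₀ = a • c₀ + (p : ℤ) • c' := by
      rw [← hc']
      abel
    have e1 : kappaC N p (a • c₀) = a • kappaC N p c₀ := map_zsmul (kappaC N p) a c₀
    have e2 : kappaC N p ((p : ℤ) • c') = (p : ℤ) • kappaC N p c' :=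
      map_zsmul (kappaC N p) (p : ℤ) c'
    have e3 : kappaC N p (a • c₀ + (p : ℤ) • c') =
        kappaC N p (a • c₀) + kappaC N p ((p : ℤ) • c') := (kappaC N p).map_add _ _
    have e4 : kappaC N p (a • c₀) + kappaC N p ((p : ℤ) • c') =
        a • kappaC N p c₀ + (p : ℤ) • kappaC N p c' := congrArg₂ (· + ·) e1 e2
    have e5 : a • kappaC N p c₀ + (p : ℤ) • kappaC N p c' = a • kappaC N p c₀ + 0 :=
      congrArg (fun z => a • kappaC N p c₀ + z) (htors c')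
    exact (congrArg (kappaC N p) h3).trans (e3.trans (e4.trans (e5.trans (add_zero _))))

end Class

end Fermat.Agent.R38
end
end MergeWrap_R38_G_NewClass

section MergeWrap_S35_SMO_EigenChar -- from S35/SMO/EigenChar.lean

set_option autoImplicit false

noncomputable section

namespace Fermat.Agent.S35SMO

open CongruenceSubgroup ModularFormClass CuspForm Fermat.Agent.S49.Forms Fermat.Agent.F3EC

variable {N : ℕ} [NeZero N]

omit [NeZero N] in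
/-- `a_{n q} = a_q a_n` for a prime `q ∣ N`. -/
theorem qCoeff_mul_prime_of_dvd {g : CuspForm (Gamma0 N) 2} (hg : g.IsNormalizedEigenform)
    {q : ℕ} (hq : q.Prime) (hqN : q ∣ N) (n : ℕ) :
    qCoeff ⇑g (n * q) = qCoeff ⇑g q * qCoeff ⇑g n := by
  rcases Nat.eq_zero_or_pos n with rfl | hn
  · rw [zero_mul, qc_zero_index, mul_zero]
  obtain ⟨r, m, hm, rfl⟩ := Nat.exists_eq_pow_mul_and_not_dvd hn.ne' q hq.ne_one
  have hcop : ∀ s : ℕ, Nat.Coprime (q ^ s) m := fun s =>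
    Nat.Coprime.pow_left s ((Nat.Prime.coprime_iff_not_dvd hq).mpr hm)
  have hpow : qCoeff ⇑g (q ^ (r + 1)) = qCoeff ⇑g q * qCoeff ⇑g (q ^ r) := by
    rcases r with _ | s
    · rw [zero_add, pow_one, pow_zero, hg.qCoeff_one, mul_one]
    · exact hg.qCoeff_prime_pow_of_dvd q s hq hqN
  have h1 : q ^ r * m * q = q ^ (r + 1) * m := by ring
  rw [h1, hg.qCoeff_mul_of_coprime _ _ (hcop (r + 1)), hg.qCoeff_mul_of_coprime _ _ (hcop r),
    hpow]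
  ring

/-- A normalised eigenform is an eigenvector of `U_q` (`q ∣ N`) with eigenvalue `a_q`. -/
theorem heckeULin_eq_smul {g : CuspForm (Gamma0 N) 2} (hg : g.IsNormalizedEigenform)
    {q : ℕ} (hq : q.Prime) (hqN : q ∣ N) :
    CuspForm.heckeULin 2 hqN g = qCoeff ⇑g q • g := by
  apply qLin_injective N
  funext n
  rw [qLin_apply, qLin_apply, qc_heckeU hq hqN, qc_smul]
  exact qCoeff_mul_prime_of_dvd hg hq hqN n

/-- Every element of the Hecke algebra acts on a normalised eigenform by a scalar. -/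
theorem exists_eigenvalue {g : CuspForm (Gamma0 N) 2} (hg : g.IsNormalizedEigenform)
    (S : Set ℕ) {t : Module.End ℂ (CuspForm (Gamma0 N) 2)} (ht : t ∈ heckeAlgebra N 2 S) :
    ∃ c : ℂ, t g = c • g := by
  unfold heckeAlgebra at ht
  induction ht using Algebra.adjoin_induction with
  | mem x hx =>
    rcases hx with ⟨ℓ, hℓ, hℓN, -, rfl⟩ | ⟨q, hqN, hq, -, rfl⟩
    · exact ⟨_, heckeTLin_eq_smul hg hℓ hℓN⟩
    · exact ⟨_, heckeULin_eq_smul hg hq hqN⟩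
  | algebraMap n =>
    refine ⟨(n : ℂ), ?_⟩
    rw [Algebra.algebraMap_eq_smul_one, LinearMap.smul_apply, Module.End.one_apply,
      ← Int.cast_smul_eq_zsmul ℂ n g]
  | add x y _ _ hx hy =>
    obtain ⟨a, ha⟩ := hx
    obtain ⟨b, hb⟩ := hy
    exact ⟨a + b, by rw [LinearMap.add_apply, ha, hb, add_smul]⟩
  | mul x y _ _ hx hy =>
    obtain ⟨a, ha⟩ := hx
    obtain ⟨b, hb⟩ := hy
    exact ⟨b * a, by rw [Module.End.mul_apply, hb, map_smul, ha, smul_smul]⟩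

/-- the eigenvalue, as a function. -/
def eigenVal (g : CuspForm (Gamma0 N) 2) (S : Set ℕ) (t : heckeAlgebra N 2 S) : ℂ :=
  qCoeff ⇑((t : Module.End ℂ (CuspForm (Gamma0 N) 2)) g) 1

theorem apply_eq_eigenVal_smul {g : CuspForm (Gamma0 N) 2} (hg : g.IsNormalizedEigenform)
    (S : Set ℕ) (t : heckeAlgebra N 2 S) :
    (t : Module.End ℂ (CuspForm (Gamma0 N) 2)) g = eigenVal g S t • g := by
  obtain ⟨c, hc⟩ := exists_eigenvalue hg S t.2
  have h : eigenVal g S t = c := by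
    rw [eigenVal, hc, qc_smul, hg.qCoeff_one, mul_one]
  rw [h, hc]

theorem eigenVal_eq_of_apply_eq {g : CuspForm (Gamma0 N) 2} (hg : g.IsNormalizedEigenform)
    (S : Set ℕ) (t : heckeAlgebra N 2 S) {c : ℂ}
    (hc : (t : Module.End ℂ (CuspForm (Gamma0 N) 2)) g = c • g) : eigenVal g S t = c := by
  rw [eigenVal, hc, qc_smul, hg.qCoeff_one, mul_one]

/-- **The eigen-character of a normalised eigenform.** -/
def eigenChar {g : CuspForm (Gamma0 N) 2} (hg : g.IsNormalizedEigenform) (S : Set ℕ) :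
    heckeAlgebra N 2 S →+* ℂ where
  toFun := eigenVal g S
  map_one' := eigenVal_eq_of_apply_eq hg S 1 (by
    rw [OneMemClass.coe_one, Module.End.one_apply, one_smul])
  map_mul' s t := eigenVal_eq_of_apply_eq hg S (s * t) (by
    rw [MulMemClass.coe_mul, Module.End.mul_apply, apply_eq_eigenVal_smul hg S t, map_smul,
      apply_eq_eigenVal_smul hg S s, smul_smul, mul_comm])
  map_zero' := eigenVal_eq_of_apply_eq hg S 0 (by
    rw [ZeroMemClass.coe_zero, LinearMap.zero_apply, zero_smul])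
  map_add' s t := eigenVal_eq_of_apply_eq hg S (s + t) (by
    rw [AddMemClass.coe_add, LinearMap.add_apply, apply_eq_eigenVal_smul hg S t,
      apply_eq_eigenVal_smul hg S s, add_smul])

theorem eigenChar_apply {g : CuspForm (Gamma0 N) 2} (hg : g.IsNormalizedEigenform) (S : Set ℕ)
    (t : heckeAlgebra N 2 S) : eigenChar hg S t = eigenVal g S t := rfl

theorem apply_eq_eigenChar_smul {g : CuspForm (Gamma0 N) 2} (hg : g.IsNormalizedEigenform)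
    (S : Set ℕ) (t : heckeAlgebra N 2 S) :
    (t : Module.End ℂ (CuspForm (Gamma0 N) 2)) g = eigenChar hg S t • g :=
  apply_eq_eigenVal_smul hg S t

/-- `χ_g (T_ℓ) = a_ℓ(g)`. -/
theorem eigenChar_T {g : CuspForm (Gamma0 N) 2} (hg : g.IsNormalizedEigenform) {S : Set ℕ}
    {ℓ : ℕ} (hℓ : ℓ.Prime) (hℓN : ¬ ℓ ∣ N) (hℓS : ℓ ∉ S) :
    eigenChar hg S (heckeAlgebra.T hℓ hℓN hℓS) = qCoeff ⇑g ℓ :=
  eigenVal_eq_of_apply_eq hg S _ (by
    rw [heckeAlgebra.coe_T]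
    exact heckeTLin_eq_smul hg hℓ hℓN)

/-- `χ_g (U_q) = a_q(g)`. -/
theorem eigenChar_U {g : CuspForm (Gamma0 N) 2} (hg : g.IsNormalizedEigenform) {S : Set ℕ}
    {q : ℕ} (hq : q.Prime) (hqN : q ∣ N) (hqS : q ∉ S) :
    eigenChar hg S (heckeAlgebra.U hq hqN hqS) = qCoeff ⇑g q :=
  eigenVal_eq_of_apply_eq hg S _ (by
    rw [heckeAlgebra.coe_U]
    exact heckeULin_eq_smul hg hq hqN)

end Fermat.Agent.S35SMO
end
end MergeWrap_S35_SMO_EigenChar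

section MergeWrap_R38_G_NewClassW -- from R38/G/NewClassW.lean

set_option autoImplicit false
set_option linter.style.haveILetI false
set_option linter.unusedSectionVars false
set_option linter.unusedVariables false

noncomputable section

namespace Fermat.Agent.R38

open CongruenceSubgroup ModularFormClass ModularCurve AlgebraicCurve
open Fermat.Agent.F3 Fermat.Agent.S35 Fermat.Agent.S33
open Fermat.Agent.AtkinLehner (ALData)
open CuspForm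

local notation "Zbar" => integralClosure ℤ ℂ

/-! ### the eigen-character with values in `ℤ̄` -/

section Lam

variable {N : ℕ} [NeZero N]

/-- the eigen-character of a normalised eigenform, with values in `ℤ̄`. -/
theorem g1_exists_lam {f : CuspForm (Gamma0 N) 2} (hf : f.IsNormalizedEigenform) (S : Set ℕ) :
    ∃ lam : heckeAlgebra N 2 S →+* Zbar,
      ∀ (ℓ : ℕ) (hℓ : ℓ.Prime) (hℓN : ¬ ℓ ∣ N) (hℓS : ℓ ∉ S),
        ((lam (heckeAlgebra.T hℓ hℓN hℓS) : Zbar) : ℂ) = qCoeff f ℓ := by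
  haveI hfin : Module.Finite ℤ (heckeAlgebra N 2 S) := Fermat.Agent.S22.result N 2 S
  have hint : ∀ t : heckeAlgebra N 2 S, IsIntegral ℤ (Fermat.Agent.S35SMO.eigenChar hf S t) := by
    intro t
    have ht : IsIntegral ℤ t := Algebra.IsIntegral.isIntegral t
    exact ht.map (Fermat.Agent.S35SMO.eigenChar hf S).toIntAlgHom
  refine ⟨(Fermat.Agent.S35SMO.eigenChar hf S).codRestrict (integralClosure ℤ ℂ).toSubring hint,
    ?_⟩
  intro ℓ hℓ hℓN hℓS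
  exact Fermat.Agent.S35SMO.eigenChar_T hf hℓ hℓN hℓS

end Lam

/-! ### the character with values in `ZMod p` -/

section Chi

variable {N : ℕ} [NeZero N]

/-- A ring homomorphism from the Hecke algebra (away from `S ⊇ {q ∣ N}`) to a ring `k` of
characteristic `p` whose values at the `T_ℓ` are (images of) integers takes its values in the
image of `ZMod p`. -/
theorem g1_range_le {S : Set ℕ} (hNS : ∀ q : ℕ, q.Prime → q ∣ N → q ∈ S)
    {k : Type*} [CommRing k] (R : Subring k) (φ : heckeAlgebra N 2 S →+* k)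
    (hφ : ∀ (ℓ : ℕ) (hℓ : ℓ.Prime) (hℓN : ¬ ℓ ∣ N) (hℓS : ℓ ∉ S),
      φ (heckeAlgebra.T hℓ hℓN hℓS) ∈ R) (t : heckeAlgebra N 2 S) : φ t ∈ R := by
  obtain ⟨x, hx⟩ := t
  induction hx using Algebra.adjoin_induction with
  | mem x hx =>
    rcases hx with ⟨ℓ, hℓ, hℓN, hℓS, rfl⟩ | ⟨q, hqN, hq, hqS, rfl⟩
    · exact hφ ℓ hℓ hℓN hℓS
    · exact absurd (hNS q hq hqN) hqS
  | algebraMap r =>
    have : (⟨algebraMap ℤ _ r, Subalgebra.algebraMap_mem _ r⟩ : heckeAlgebra N 2 S) =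
        algebraMap ℤ (heckeAlgebra N 2 S) r := rfl
    rw [this, eq_intCast, map_intCast]
    exact intCast_mem R r
  | add x y hx hy hx' hy' =>
    have : (⟨x + y, Subalgebra.add_mem _ hx hy⟩ : heckeAlgebra N 2 S) = ⟨x, hx⟩ + ⟨y, hy⟩ := rfl
    rw [this, map_add]
    exact R.add_mem hx' hy'
  | mul x y hx hy hx' hy' =>
    have : (⟨x * y, Subalgebra.mul_mem _ hx hy⟩ : heckeAlgebra N 2 S) = ⟨x, hx⟩ * ⟨y, hy⟩ := rfl
    rw [this, map_mul]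
    exact R.mul_mem hx' hy'

/-- **The mod-`p` character** of a system `a ℓ` of integers congruent to an eigenform modulo a
maximal ideal `𝔪 ∋ p` of `ℤ̄`. -/
theorem g1_exists_chi {S : Set ℕ} (hNS : ∀ q : ℕ, q.Prime → q ∣ N → q ∈ S)
    {p : ℕ} (hp : p.Prime) (a : ℕ → ℤ)
    (lam : heckeAlgebra N 2 S →+* Zbar) (𝔪 : Ideal Zbar) (h𝔪 : 𝔪.IsMaximal)
    (hp𝔪 : (p : Zbar) ∈ 𝔪)
    (hcong : ∀ (ℓ : ℕ) (hℓ : ℓ.Prime) (hℓN : ¬ ℓ ∣ N) (hℓS : ℓ ∉ S),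
      lam (heckeAlgebra.T hℓ hℓN hℓS) - ((a ℓ : ℤ) : Zbar) ∈ 𝔪) :
    ∃ χ : heckeAlgebra N 2 S →+* ZMod p,
      ∀ (ℓ : ℕ) (hℓ : ℓ.Prime) (hℓN : ¬ ℓ ∣ N) (hℓS : ℓ ∉ S),
        χ (heckeAlgebra.T hℓ hℓN hℓS) = ((a ℓ : ℤ) : ZMod p) := by
  haveI : Fact p.Prime := ⟨hp⟩
  letI : Field (Zbar ⧸ 𝔪) := Ideal.Quotient.field 𝔪
  have hp0 : ((p : ℕ) : Zbar ⧸ 𝔪) = 0 := by
    have := Ideal.Quotient.eq_zero_iff_mem.mpr hp𝔪
    rwa [map_natCast] at this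
  haveI : CharP (Zbar ⧸ 𝔪) p := by
    have hdvd : ringChar (Zbar ⧸ 𝔪) ∣ p := (ringChar.spec (Zbar ⧸ 𝔪) p).mp hp0
    rcases (Nat.dvd_prime hp).mp hdvd with h1 | h1
    · exact absurd h1 (CharP.ringChar_ne_one)
    · rw [← h1]
      exact ringChar.charP _
  let ι : ZMod p →+* (Zbar ⧸ 𝔪) := ZMod.castHom (dvd_refl p) (Zbar ⧸ 𝔪)
  have hι : Function.Injective ι := ι.injective
  let φ : heckeAlgebra N 2 S →+* (Zbar ⧸ 𝔪) := (Ideal.Quotient.mk 𝔪).comp lam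
  have hφT : ∀ (ℓ : ℕ) (hℓ : ℓ.Prime) (hℓN : ¬ ℓ ∣ N) (hℓS : ℓ ∉ S),
      φ (heckeAlgebra.T hℓ hℓN hℓS) = ι ((a ℓ : ℤ) : ZMod p) := by
    intro ℓ hℓ hℓN hℓS
    have h1 := Ideal.Quotient.eq_zero_iff_mem.mpr (hcong ℓ hℓ hℓN hℓS)
    rw [map_sub, sub_eq_zero, map_intCast] at h1
    rw [map_intCast]
    exact h1
  have hrange : ∀ t, φ t ∈ ι.range :=
    g1_range_le hNS ι.range φ (fun ℓ hℓ hℓN hℓS => ⟨_, (hφT ℓ hℓ hℓN hℓS).symm⟩)
  choose ψ hψ using hrange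
  have hone : ψ 1 = 1 := hι (by rw [hψ, map_one, map_one])
  have hzero : ψ 0 = 0 := hι (by rw [hψ, map_zero, map_zero])
  have hmul : ∀ s t, ψ (s * t) = ψ s * ψ t := fun s t =>
    hι (by rw [hψ, map_mul, map_mul, hψ, hψ])
  have hadd : ∀ s t, ψ (s + t) = ψ s + ψ t := fun s t =>
    hι (by rw [hψ, map_add, map_add, hψ, hψ])
  let χ : heckeAlgebra N 2 S →+* ZMod p :=
    { toFun := ψ
      map_one' := hone
      map_mul' := hmul
      map_zero' := hzero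
      map_add' := hadd }
  refine ⟨χ, ?_⟩
  intro ℓ hℓ hℓN hℓS
  exact hι ((hψ _).trans (hφT ℓ hℓ hℓN hℓS))

end Chi

/-! ### the dichotomy -/

section Dichotomy

variable {N N₀ p : ℕ} [NeZero N] [NeZero N₀] [NeZero p]

/-- **G1 (mod-`p` dichotomy), AT form** (`N = N₀ * p`, explicit Atkin–Lehner data `D`):
either the system `a` occurs at level `N₀` (`R38Ret.RetOutput`), or there is a nonzero `p`-new
eigen-class `y ∈ J₀(N)(ℚ̄)[p]` (`y ∈ newEigenAt h D hM S a`, unfolded). -/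
theorem g1_dichotomy_at (h : N = N₀ * p) (hp : p.Prime) (hpN : ¬ p ∣ N₀)
    (D : ALData) (hQ : D.Q = p) (hR : D.R = N₀) (hM : N = D.Q * D.R)
    (S : Finset ℕ) (hS : ∀ q : ℕ, q.Prime → q ∣ N → q ∈ S) (a : ℕ → ℤ)
    (f : CuspForm (Gamma0 N) 2) (hf : f.IsNormalizedEigenform)
    (𝔪 : Ideal Zbar) (h𝔪 : 𝔪.IsMaximal) (hp𝔪 : ((p : ℕ) : Zbar) ∈ 𝔪)
    (hcong : ∀ ℓ : ℕ, ℓ.Prime → ℓ ∉ S →
      ∃ α : Zbar, (α : ℂ) = qCoeff f ℓ ∧ α - ((a ℓ : ℤ) : Zbar) ∈ 𝔪) :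
    Fermat.Agent.R38Ret.RetOutput p N₀ S a ∨
      ∃ y : JZero N, y ≠ 0 ∧ (p : ℕ) • y = 0 ∧ pnewAlpha h y = 0 ∧ pnewBeta h D hM y = 0 ∧
        ∀ ℓ : Nat.Primes, (ℓ : ℕ) ∉ S → ¬ (ℓ : ℕ) ∣ N →
          heckeOperatorBar N ℓ y = (a ℓ : ℤ) • y := by
  classical
  haveI : Fact p.Prime := ⟨hp⟩
  have hS' : ∀ q : ℕ, q.Prime → q ∣ N → q ∈ (↑S : Set ℕ) := fun q hq hqN =>
    Finset.mem_coe.mpr (hS q hq hqN)
  obtain ⟨lam, hlam⟩ := g1_exists_lam hf (↑S : Set ℕ)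
  have hcong' : ∀ (ℓ : ℕ) (hℓ : ℓ.Prime) (hℓN : ¬ ℓ ∣ N) (hℓS : ℓ ∉ (↑S : Set ℕ)),
      lam (heckeAlgebra.T hℓ hℓN hℓS) - ((a ℓ : ℤ) : Zbar) ∈ 𝔪 := by
    intro ℓ hℓ hℓN hℓS
    obtain ⟨α, hα, hα𝔪⟩ := hcong ℓ hℓ (fun h => hℓS (Finset.mem_coe.mpr h))
    have : lam (heckeAlgebra.T hℓ hℓN hℓS) = α := Subtype.ext ((hlam ℓ hℓ hℓN hℓS).trans hα.symm)
    rw [this]
    exact hα𝔪
  obtain ⟨χ, hχ⟩ := g1_exists_chi hS' hp a lam 𝔪 h𝔪 hp𝔪 hcong'
  by_cases hocc : OccursAtLevel N₀ N S χ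
  · left
    obtain ⟨χ₀, hχ₀⟩ := hocc
    have hne : Ideal.span ({((p : ℕ) : heckeAlgebra N₀ 2 (↑S : Set ℕ))} ∪
        {t | ∃ (ℓ : ℕ) (hℓ : ℓ.Prime) (hℓN : ¬ ℓ ∣ N₀) (hℓS : ℓ ∉ (↑S : Set ℕ)),
          t = heckeAlgebra.T hℓ hℓN hℓS - (a ℓ : heckeAlgebra N₀ 2 (↑S : Set ℕ))}) ≠ ⊤ := by
      intro htop
      have hle : Ideal.span ({((p : ℕ) : heckeAlgebra N₀ 2 (↑S : Set ℕ))} ∪
          {t | ∃ (ℓ : ℕ) (hℓ : ℓ.Prime) (hℓN : ¬ ℓ ∣ N₀) (hℓS : ℓ ∉ (↑S : Set ℕ)),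
            t = heckeAlgebra.T hℓ hℓN hℓS - (a ℓ : heckeAlgebra N₀ 2 (↑S : Set ℕ))}) ≤
          RingHom.ker χ₀ := by
        rw [Ideal.span_le]
        rintro t (ht | ⟨ℓ, hℓ, hℓN₀, hℓS, rfl⟩)
        · rw [Set.mem_singleton_iff] at ht
          rw [ht, SetLike.mem_coe, RingHom.mem_ker, map_natCast]
          exact ZMod.natCast_self _
        · have hℓN : ¬ ℓ ∣ N := fun h => hℓS (hS' ℓ hℓ h)
          rw [SetLike.mem_coe, RingHom.mem_ker, map_sub, map_intCast,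
            hχ₀ ℓ hℓ hℓN hℓN₀ hℓS, hχ ℓ hℓ hℓN hℓS, sub_self]
      rw [htop, top_le_iff] at hle
      exact RingHom.ker_ne_top χ₀ hle
    obtain ⟨g, 𝔪', hg, h𝔪', hp𝔪', hg𝔪'⟩ :=
      Fermat.Agent.R38Ret.chi_goingUp (↑S : Set ℕ) p a hne
    exact ⟨g, 𝔪', hg, h𝔪', hp𝔪', fun ℓ hℓ hℓS hℓN =>
      hg𝔪' ℓ hℓ hℓN (fun h => hℓS (Finset.mem_coe.mp h))⟩
  · right
    obtain ⟨y, hy0, hyA, hyB, hyT⟩ := g1_exists_newClass h hp hpN D hQ hR hM S hS χ hocc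
    refine ⟨(y : JZero N), fun h => hy0 (Subtype.ext h), ?_, hyA, hyB, ?_⟩
    · have := y.2
      rw [Submodule.mem_torsionBy_iff] at this
      rw [← natCast_zsmul]
      exact this
    · intro ℓ hℓS hℓN
      have hℓS' : (ℓ : ℕ) ∉ (↑S : Set ℕ) := fun h => hℓS (Finset.mem_coe.mp h)
      have h1 := hyT ℓ ℓ.2 hℓN hℓS' (a ℓ) (hχ ℓ ℓ.2 hℓN hℓS').symm
      exact congrArg (Subtype.val) h1

end Dichotomy

section DichotomyIdx

variable {N : ℕ} [NeZero N]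

/-- **G1 (mod-`p` dichotomy), index form** (`p = i.1 ‖ N`, `S33.newUAt i`). -/
theorem g1_dichotomy (i : Fermat.Agent.S35.NewIdx N 0) (S : Finset ℕ)
    (hS : ∀ q : ℕ, q.Prime → q ∣ N → q ∈ S) (a : ℕ → ℤ)
    (f : CuspForm (Gamma0 N) 2) (hf : f.IsNormalizedEigenform)
    (𝔪 : Ideal Zbar) (h𝔪 : 𝔪.IsMaximal) (hp𝔪 : ((i.1 : ℕ) : Zbar) ∈ 𝔪)
    (hcong : ∀ ℓ : ℕ, ℓ.Prime → ℓ ∉ S →
      ∃ α : Zbar, (α : ℂ) = qCoeff f ℓ ∧ α - ((a ℓ : ℤ) : Zbar) ∈ 𝔪) :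
    Fermat.Agent.R38Ret.RetOutput i.1 (N / i.1) S a ∨
      ∃ y : JZero N, y ≠ 0 ∧ (i.1 : ℕ) • y = 0 ∧ newUAt i y = 0 ∧
        ∀ ℓ : Nat.Primes, (ℓ : ℕ) ∉ S → ¬ (ℓ : ℕ) ∣ N →
          heckeOperatorBar N ℓ y = (a ℓ : ℤ) • y := by
  haveI := i.neZero_N
  haveI := i.neZero_q
  rcases g1_dichotomy_at i.level_eq i.prime i.not_dvd_N i.data i.data_Q i.data_R i.level_eq_data
    S hS a f hf 𝔪 h𝔪 hp𝔪 hcong with h | ⟨y, hy0, hpy, hyA, hyB, hyT⟩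
  · exact Or.inl h
  · exact Or.inr ⟨y, hy0, hpy, (newUAt_eq_zero_iff i y).mpr ⟨hyA, hyB⟩, hyT⟩

end DichotomyIdx

end Fermat.Agent.R38
end
end MergeWrap_R38_G_NewClassW

section MergeWrap_R38_G_JG1 -- from R38/G/JG1.lean

set_option autoImplicit false
set_option linter.style.haveILetI false
set_option linter.unusedSectionVars false

noncomputable section

namespace Fermat.Agent.R38

open ModularCurve AlgebraicCurve CuspForm WeierstrassCurve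
open Fermat.Agent.AtkinLehner (ALData)

local notation "Qb" => (AlgebraicClosure ℚ)

/-- **J-G1**, unfolded. -/
theorem jg1_at (P : FreyPackage) (D : ALData) [NeZero D.Q] [NeZero D.R] [NeZero (D.Q * D.R)]
    (hQ : D.Q = P.p) (hQR : ¬ D.Q ∣ D.R) (hmod : P.ModularRepOfLevel (D.Q * D.R)) :
    ∃ (W : WeierstrassCurve ℤ) (S : Finset ℕ), W.IsIntegralModelOf P.freyCurve ∧
      (P.p ∈ S ∧ (∀ q : ℕ, q.Prime → q ∣ D.Q * D.R → q ∈ S) ∧
        ∀ ℓ : ℕ, ℓ.Prime → ¬ W.IsGoodPrimeFor ℓ → ℓ ∈ S) ∧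
      (Fermat.Agent.R38Ret.RetOutput P.p D.R S (fun ℓ => W.apOfModel ℓ) ∨
        ∃ y : JZero (D.Q * D.R), y ≠ 0 ∧
          y ∈ newEigenAt (mul_comm D.Q D.R) D rfl S (fun ℓ => W.apOfModel ℓ)) := by
  obtain ⟨f, W, 𝔪, hf, hW, h𝔪, hp𝔪, hcong⟩ := hmod
  have hΔ : W.Δ ≠ 0 := frey_model_Δ_ne_zero P hW
  have hN : D.Q * D.R ≠ 0 := NeZero.ne _
  have hp : D.Q.Prime := hQ ▸ P.pp
  have hS1 : ∀ q : ℕ, q.Prime → q ∣ D.Q * D.R → q ∈ badSet (D.Q * D.R) P.p W :=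
    fun q hq hqN => mem_badSet_of_dvd hN P.p W hq hqN
  have hS2 : ∀ q : ℕ, q.Prime → ¬ W.IsGoodPrimeFor q → q ∈ badSet (D.Q * D.R) P.p W :=
    fun q hq hqW => mem_badSet_of_bad (D.Q * D.R) P.p hΔ hq hqW
  have hp𝔪' : ((D.Q : ℕ) : integralClosure ℤ ℂ) ∈ 𝔪 := by rw [hQ]; exact hp𝔪
  refine ⟨W, badSet (D.Q * D.R) P.p W, hW, ⟨mem_badSet_self _ _ _, hS1, hS2⟩, ?_⟩
  rcases g1_dichotomy_at (N := D.Q * D.R) (N₀ := D.R) (p := D.Q) (mul_comm D.Q D.R) hp hQR D rfl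
    rfl rfl (badSet (D.Q * D.R) P.p W) hS1 (fun ℓ => W.apOfModel ℓ) f hf 𝔪 h𝔪 hp𝔪'
    (fun ℓ hℓ hℓS => hcong ℓ hℓ (good_of_not_mem_badSet (D.Q * D.R) P.p hΔ hℓ hℓS)
      (not_dvd_of_not_mem_badSet hN P.p W hℓ hℓS)
      (ne_of_not_mem_badSet (D.Q * D.R) P.p W hℓS)) with hret | ⟨y, hy0, h1, h2, h3, h4⟩
  · exact Or.inl (hQ ▸ hret)
  · exact Or.inr ⟨y, hy0, h1, h2, h3, h4⟩

end Fermat.Agent.R38
end
end MergeWrap_R38_G_JG1

section MergeWrap_R38_G_SpJG1 -- from R38/G/SpJG1.lean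

set_option autoImplicit false

noncomputable section

namespace Fermat.Agent.R38

/-- **J-G1**. -/
theorem spJG1 : SpJG1 := by
  intro P D _ _ _ hQ hQR _ hmod
  obtain ⟨W, S, hW, hS, h⟩ := jg1_at P D hQ hQR hmod
  exact ⟨W, S, hW, hS, h.imp id (fun ⟨y, hy0, hy⟩ => ⟨y, hy0, hy⟩)⟩

end Fermat.Agent.R38
end
end MergeWrap_R38_G_SpJG1
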